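/-
S35 top glue, pure algebra (helper991).

`eq_or_eq_neg_of_rel_of_badFrob`: on a nontrivial torsion-free module over a domain in which
`q ≠ 0`, an endomorphism `s` with `s² - a s + q = 0` and `(s² - 1)(s² - q²) = 0` has
`a = q + 1` or `a = -(q + 1)`.
Mathlib only.
-/
import Mathlib

set_option autoImplicit false

namespace Fermat.Agent.S35.H991

section

variable {𝒪 M : Type*} [CommRing 𝒪] [IsDomain 𝒪] [AddCommGroup M] [Module 𝒪 M]
  [Module.IsTorsionFree 𝒪 M]

/-- The bad-Frobenius relation `(s² - 1)(s² - q²) = 0`, in factored form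
`(s - 1)(s + 1)(s - q)(s + q) = 0`, applied to vectors. -/
def BadFrobRel (q : 𝒪) (s : Module.End 𝒪 M) : Prop :=
  ∀ v : M, s (s (s (s v))) - (1 + q ^ 2) • s (s v) + (q ^ 2) • v = 0

/-- An eigenvector of `s` for the eigenvalue `c` forces `c² - a c + q = 0`. -/
theorem quad_of_eigen {q a c : 𝒪} {s : Module.End 𝒪 M}
    (hrel : ∀ v : M, s (s v) - a • s v + q • v = 0) {v : M} (hv : v ≠ 0) (hsv : s v = c • v) :
    c * c - a * c + q = 0 := by
  have h := hrel v
  rw [hsv, map_smul, hsv, smul_smul, smul_smul, ← sub_smul, ← add_smul] at h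
  rcases smul_eq_zero.mp h with h0 | h0
  · exact h0
  · exact absurd h0 hv

/-- **Algebraic core of S35.**  A quadratic relation with constant term `q` together with the
bad-Frobenius relation pins the trace down to `± (q + 1)`. -/
theorem eq_or_eq_neg_of_rel_of_badFrob [Nontrivial M] {q a : 𝒪} (hq : q ≠ 0)
    {s : Module.End 𝒪 M}
    (hrel : ∀ v : M, s (s v) - a • s v + q • v = 0) (hbad : BadFrobRel q s) :
    a = q + 1 ∨ a = -(q + 1) := by
  obtain ⟨v, hv⟩ := exists_ne (0 : M)
  -- the four factors
  set v₃ : M := s v + q • v with hv₃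
  set v₂ : M := s v₃ - q • v₃ with hv₂
  set v₁ : M := s v₂ + v₂ with hv₁
  have h4 : s v₁ - v₁ = 0 := by
    have := hbad v
    rw [hv₁, hv₂, hv₃]
    simp only [map_add, map_sub, map_smul]
    rw [← this]
    module
  by_cases h1 : v₁ = 0
  · by_cases h2 : v₂ = 0
    · by_cases h3 : v₃ = 0
      · -- `s v = -q v`
        have hsv : s v = (-q) • v := by
          rw [neg_smul]
          exact eq_neg_of_add_eq_zero_left h3
        have := quad_of_eigen hrel hv hsv
        right
        have h5 : q * (q + a + 1) = 0 := by linear_combination this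
        rcases mul_eq_zero.mp h5 with h6 | h6
        · exact absurd h6 hq
        · linear_combination h6
      · -- `s v₃ = q v₃`
        have hsv : s v₃ = q • v₃ := sub_eq_zero.mp h2
        have := quad_of_eigen hrel h3 hsv
        left
        have h5 : q * (q - a + 1) = 0 := by linear_combination this
        rcases mul_eq_zero.mp h5 with h6 | h6
        · exact absurd h6 hq
        · linear_combination -h6
    · -- `s v₂ = - v₂`
      have hsv : s v₂ = (-1 : 𝒪) • v₂ := by
        rw [neg_smul, one_smul]
        exact eq_neg_of_add_eq_zero_left h1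
      have := quad_of_eigen hrel h2 hsv
      right
      linear_combination this
  · -- `s v₁ = v₁`
    have hsv : s v₁ = (1 : 𝒪) • v₁ := by
      rw [one_smul]
      exact sub_eq_zero.mp h4
    have := quad_of_eigen hrel h1 hsv
    left
    linear_combination -this

end

end Fermat.Agent.S35.H991
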