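/-
S35 mid layer (helper991): the flatness bridge.

`exists_lTensor_subtype_eq`: let `J` be an abelian group with finite `m`-torsion, `f c : J → J' c`
a family of additive maps and `K ≤ J` a subgroup containing every `m`-torsion element killed by
all the `f c`.  Then every `m`-torsion element of `O ⊗ J` killed by all the `1 ⊗ f c` comes from
`O ⊗ K` (`O` flat over `ℤ`).
-/
import Fermat.Agent.S30.H529.TateTensor

set_option autoImplicit false

namespace Fermat.Agent.S35.H991

open TensorProduct

section Pi

variable (O : Type*) [CommRing O]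
variable {I : Type*} [Finite I] {M : I → Type*} [∀ i, AddCommGroup (M i)]

/-- An element of `O ⊗ ∏ M i` (finite product) all of whose components vanish is zero. -/
theorem eq_zero_of_proj_lTensor_eq_zero (z : O ⊗[ℤ] (∀ i, M i))
    (hz : ∀ i, (LinearMap.proj (R := ℤ) (φ := M) i).lTensor O z = 0) : z = 0 := by
  classical
  have : Fintype I := Fintype.ofFinite I
  have h1 : TensorProduct.piRight ℤ ℤ O M z = 0 := by
    funext i
    have h2 : ∀ w : O ⊗[ℤ] (∀ i, M i),
        TensorProduct.piRight ℤ ℤ O M w i = (LinearMap.proj (R := ℤ) (φ := M) i).lTensor O w := by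
      intro w
      induction w using TensorProduct.induction_on with
      | zero => simp
      | tmul x g => simp
      | add a b ha hb => rw [map_add, map_add, Pi.add_apply, ha, hb]
    rw [h2, hz i]
    rfl
  exact (TensorProduct.piRight ℤ ℤ O M).injective (by rw [h1, map_zero])

end Pi

section Flat

variable (O : Type*) [CommRing O] [Module.Flat ℤ O]
variable {J : Type*} [AddCommGroup J]

/-- **Flatness bridge.** -/
theorem exists_lTensor_subtype_eq (m : ℕ) (hfin : {x : J | m • x = 0}.Finite)
    {C : Type*} {J' : C → Type*} [∀ c, AddCommGroup (J' c)] (f : ∀ c, J →ₗ[ℤ] J' c)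
    (K : Submodule ℤ J) (hK : ∀ x : J, m • x = 0 → (∀ c, f c x = 0) → x ∈ K)
    (y : O ⊗[ℤ] J) (hy : (m : ℤ) • y = 0) (hfy : ∀ c, (f c).lTensor O y = 0) :
    ∃ s : O ⊗[ℤ] K, K.subtype.lTensor O s = y := by
  classical
  -- step 1: `y` comes from `O ⊗ J[m]`
  set Jm := LinearMap.ker ((m : ℤ) • (LinearMap.id : J →ₗ[ℤ] J)) with hJm
  obtain ⟨y', hy'⟩ := Fermat.Agent.S30.H529.exists_lTensor_eq_of_smul_eq_zero O (m : ℤ) y hy
  have hmem : ∀ x : J, x ∈ Jm ↔ m • x = 0 := by
    intro x
    rw [hJm, LinearMap.mem_ker, LinearMap.smul_apply, LinearMap.id_apply, natCast_zsmul]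
  have hJmfin : Finite Jm := by
    have : (Jm : Set J) = {x : J | m • x = 0} := by
      ext x
      exact hmem x
    exact Set.finite_coe_iff.mpr (this ▸ hfin)
  -- step 2: finitely many of the maps suffice
  have hex : ∀ x : {x : Jm // (x : J) ∉ K}, ∃ c : C, f c (x : Jm) ≠ 0 := by
    rintro ⟨x, hx⟩
    by_contra hcon
    push Not at hcon
    exact hx (hK x ((hmem x).mp x.2) hcon)
  choose c hc using hex
  let F : Jm →ₗ[ℤ] (∀ x : {x : Jm // (x : J) ∉ K}, J' (c x)) :=
    LinearMap.pi fun x => (f (c x)).comp Jm.subtype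
  have hFK : ∀ z : Jm, F z = 0 → (z : J) ∈ K := by
    intro z hz
    by_contra hzK
    have := congrFun hz ⟨z, hzK⟩
    exact hc ⟨z, hzK⟩ this
  -- step 3: flatness
  have hexact := Module.Flat.lTensor_exact O (LinearMap.exact_subtype_ker_map F)
  have hFy : F.lTensor O y' = 0 := by
    apply eq_zero_of_proj_lTensor_eq_zero O
    intro x
    have h1 : (LinearMap.proj (R := ℤ) (φ := fun x : {x : Jm // (x : J) ∉ K} => J' (c x)) x).comp F
        = (f (c x)).comp Jm.subtype := by
      apply LinearMap.ext
      intro z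
      rfl
    rw [← LinearMap.comp_apply, ← LinearMap.lTensor_comp, h1, LinearMap.lTensor_comp,
      LinearMap.comp_apply, hy', hfy]
  obtain ⟨s', hs'⟩ := (hexact y').mp hFy
  -- step 4: push to `K`
  let incl : LinearMap.ker F →ₗ[ℤ] K :=
    { toFun := fun z => ⟨((z : Jm) : J), hFK z z.2⟩
      map_add' := fun a b => rfl
      map_smul' := fun r a => rfl }
  refine ⟨incl.lTensor O s', ?_⟩
  have h2 : K.subtype.comp incl = Jm.subtype.comp (LinearMap.ker F).subtype := by
    apply LinearMap.ext
    intro z
    rfl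
  rw [← LinearMap.comp_apply, ← LinearMap.lTensor_comp, h2, LinearMap.lTensor_comp,
    LinearMap.comp_apply, hs', hy']

end Flat

end Fermat.Agent.S35.H991
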