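/-
S35 mid layer (helper991): the adic eigenmodule of the NEW part.

Abstract setting: `J` a Galois module with finite `p`-torsion and commuting operators `T i`;
`f c : J → J' c` a family of operator-equivariant additive maps ("degeneracy maps") such that the
eigensystem `a` does NOT occur in the Tate modules of the `J' c`.  Then the adic eigenmodule can be
built inside the Galois-stable subgroup

  `newSub f = {x | ∀ γ c, f c (γ • x) = 0}`,

so that it inherits every quadratic relation which holds on the `p`-power torsion of `newSub f`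
only (not necessarily on all of `J[p^∞]`).

Main result: `exists_adic_eigenmodule_new`.
-/
import Fermat.Agent.S35.H991.Flat
import Fermat.Agent.S30.H529.AdicEigen

set_option autoImplicit false

namespace Fermat.Agent.S35.H991

open TensorProduct IsLocalRing Fermat.Agent.S30.H529

section NewSub

variable {G : Type*} [Group G] {J : Type*} [AddCommGroup J] [DistribMulAction G J]
variable {C : Type*} {J' : C → Type*} [∀ c, AddCommGroup (J' c)]

/-- The `G`-stable subgroup of `J` cut out by the additive maps `f c`. -/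
def newSub (G : Type*) [Group G] [DistribMulAction G J] (f : ∀ c, J →+ J' c) :
    Submodule ℤ J where
  carrier := {x | ∀ (γ : G) (c : C), f c (γ • x) = 0}
  zero_mem' := by
    intro γ c
    rw [smul_zero, map_zero]
  add_mem' := by
    intro x y hx hy γ c
    rw [smul_add, map_add, hx γ c, hy γ c, add_zero]
  smul_mem' := by
    intro r x hx γ c
    have h1 : γ • (r • x) = r • (γ • x) := by
      have := map_zsmul (DistribSMul.toAddMonoidHom J γ) r x
      exact this
    rw [h1, map_zsmul, hx γ c, smul_zero]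

theorem mem_newSub {f : ∀ c, J →+ J' c} {x : J} :
    x ∈ newSub G f ↔ ∀ (γ : G) (c : C), f c (γ • x) = 0 := Iff.rfl

theorem smul_mem_newSub {f : ∀ c, J →+ J' c} (γ : G) {x : J} (hx : x ∈ newSub G f) :
    γ • x ∈ newSub G f := by
  intro γ' c
  rw [← mul_smul]
  exact hx (γ' * γ) c

/-- The Galois action on the new subgroup. -/
@[reducible] def newSubAction (f : ∀ c, J →+ J' c) : DistribMulAction G (newSub G f) where
  smul γ x := ⟨γ • (x : J), smul_mem_newSub γ x.2⟩
  one_smul x := Subtype.ext (one_smul G (x : J))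
  mul_smul γ δ x := Subtype.ext (mul_smul γ δ (x : J))
  smul_zero γ := Subtype.ext (smul_zero γ)
  smul_add γ x y := Subtype.ext (smul_add γ (x : J) (y : J))

end NewSub

section Main

/-- The absolute Galois group of `ℚ`. -/
local notation "Γℚ" => (AlgebraicClosure ℚ ≃ₐ[ℚ] AlgebraicClosure ℚ)

variable {O : Type} [CommRing O] [IsDomain O] [IsDiscreteValuationRing O]
  [IsAdicComplete (maximalIdeal O) O] [CharZero O]

/-- **The adic eigenmodule of the new part.** -/
theorem exists_adic_eigenmodule_new {p : ℕ} (hpO : (p : O) ∈ maximalIdeal O) (hp0 : p ≠ 0)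
    {J : Type} [AddCommGroup J] [DistribMulAction Γℚ J]
    {ι : Type} (T : ι → J →+ J) (a : ι → O)
    (hT : ∀ (i : ι) (γ : Γℚ) (x : J), T i (γ • x) = γ • T i x)
    (hfin : {x : J | p • x = 0}.Finite)
    (hsm : ∀ x : J, (∃ n : ℕ, p ^ n • x = 0) →
      ∃ L : IntermediateField ℚ (AlgebraicClosure ℚ), FiniteDimensional ℚ L ∧
        ∀ σ : Γℚ, (∀ y ∈ L, σ y = y) → σ • x = x)
    {C : Type} {J' : C → Type} [∀ c, AddCommGroup (J' c)]
    (T' : ∀ c, ι → J' c →+ J' c) (f : ∀ c, J →+ J' c)
    (hf : ∀ (c : C) (i : ι) (x : J), f c (T i x) = T' c i (f c x))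
    (hexcl : ∀ (c : C) (z : ℕ → O ⊗[ℤ] J' c), (p : O) • z 0 = 0 →
      (∀ n, (p : O) • z (n + 1) = z n) →
      (∀ i n, tensorOp O (T' c) i (z n) = a i • z n) → z = 0)
    (v : ℕ → O ⊗[ℤ] J) (hv0 : (p : O) • v 0 = 0) (hv : ∀ n, (p : O) • v (n + 1) = v n)
    (hne : v ≠ 0) (heig : ∀ i n, tensorOp O T i (v n) = a i • v n) :
    ∃ (M : Type) (_ : AddCommGroup M) (_ : Module O M) (_ : Module.Free O M)
      (_ : Module.Finite O M) (ρ : Γℚ →* Module.End O M),
      Nontrivial M ∧ GaloisActionIsAdicContinuous O ρ ∧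
      (∀ γ : Γℚ,
        (∀ x : J, (∃ n : ℕ, p ^ n • x = 0) → (∀ (γ' : Γℚ) (c : C), f c (γ' • x) = 0) →
          γ • x = x) → ρ γ = 1) ∧
      (∀ (γ : Γℚ) (i : ι) (c : ℤ),
        (∀ x : J, (∃ n : ℕ, p ^ n • x = 0) → (∀ (γ' : Γℚ) (c' : C), f c' (γ' • x) = 0) →
          γ • γ • x - T i (γ • x) + c • x = 0) →
        ρ γ * ρ γ - a i • ρ γ + (c : O) • (1 : Module.End O M) = 0) ∧
      (∀ (γ : Γℚ) (b c : ℤ),
        (∀ x : J, (∃ n : ℕ, p ^ n • x = 0) → (∀ (γ' : Γℚ) (c' : C), f c' (γ' • x) = 0) →
          γ • γ • x - b • (γ • x) + c • x = 0) →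
        ρ γ * ρ γ - (b : O) • ρ γ + (c : O) • (1 : Module.End O M) = 0) := by
  classical
  -- the new subgroup, with its Galois action
  let K : Submodule ℤ J := newSub Γℚ f
  letI actK : DistribMulAction Γℚ K := newSubAction f
  have hsmulK : ∀ (γ : Γℚ) (x : K), ((γ • x : K) : J) = γ • (x : J) := fun _ _ => rfl
  -- the operators on `K`
  have hTK : ∀ (i : ι) (x : J), x ∈ K → T i x ∈ K := by
    intro i x hx γ c
    rw [← hT, hf, hx γ c, map_zero]
  let TK : ι ⊕ ℤ → K →+ K := fun j =>
    match j with
    | Sum.inl i =>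
      { toFun := fun x => ⟨T i (x : J), hTK i (x : J) x.2⟩
        map_zero' := Subtype.ext (map_zero (T i))
        map_add' := fun x y => Subtype.ext (map_add (T i) (x : J) (y : J)) }
    | Sum.inr b => zsmulAddGroupHom b
  let aK : ι ⊕ ℤ → O := fun j =>
    match j with
    | Sum.inl i => a i
    | Sum.inr b => (b : O)
  have hTKl : ∀ (i : ι) (x : K), ((TK (Sum.inl i) x : K) : J) = T i (x : J) := fun _ _ => rfl
  have hTKr : ∀ (b : ℤ) (x : K), TK (Sum.inr b) x = b • x := fun _ _ => rfl
  have hTKG : ∀ (j : ι ⊕ ℤ) (γ : Γℚ) (x : K), TK j (γ • x) = γ • TK j x := by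
    intro j γ x
    cases j with
    | inl i =>
      apply Subtype.ext
      rw [hTKl, hsmulK, hsmulK, hTKl]
      exact hT i γ (x : J)
    | inr b =>
      rw [hTKr, hTKr]
      apply Subtype.ext
      rw [hsmulK]
      have h1 : (((b • (γ • x) : K)) : J) = b • (γ • (x : J)) := rfl
      have h2 : ((b • x : K) : J) = b • (x : J) := rfl
      rw [h1, h2]
      exact (map_zsmul (DistribSMul.toAddMonoidHom J γ) b (x : J)).symm
  have hfinK : {x : K | p • x = 0}.Finite := by
    refine Set.Finite.of_finite_image (f := fun x : K => (x : J)) ?_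
      (fun x _ y _ h => Subtype.ext h)
    refine hfin.subset ?_
    rintro _ ⟨x, hx, rfl⟩
    show p • (x : J) = 0
    have : ((p • x : K) : J) = 0 := by rw [hx]; rfl
    exact this
  have hsmK : ∀ x : K, (∃ n : ℕ, p ^ n • x = 0) →
      ∃ L : IntermediateField ℚ (AlgebraicClosure ℚ), FiniteDimensional ℚ L ∧
        ∀ σ : Γℚ, (∀ y ∈ L, σ y = y) → σ • x = x := by
    rintro x ⟨n, hn⟩
    obtain ⟨L, hL, hLx⟩ := hsm (x : J) ⟨n, by
      have : ((p ^ n • x : K) : J) = 0 := by rw [hn]; rfl
      exact this⟩
    exact ⟨L, hL, fun σ hσ => Subtype.ext (hLx σ hσ)⟩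
  -- the eigen-sequence lies in `O ⊗ K`
  have hvpow : ∀ n, ((p ^ (n + 1) : ℕ) : ℤ) • v n = 0 := by
    intro n
    have h1 : (p : O) ^ (n + 1) • v n = 0 :=
      tate_pow_succ_smul (ϖ := (p : O)) (t := tensorOp O T) (a := a) ⟨hv0, hv, heig⟩ n
    rw [← natCast_pow_smul]
    exact h1
  have hinj : Function.Injective (K.subtype.baseChange O) := by
    have := Module.Flat.lTensor_preserves_injective_linearMap (M := O) K.subtype
      K.injective_subtype
    exact this
  -- vanishing of the images under the degeneracy maps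
  have hvan : ∀ (γ : Γℚ) (c : C) (n : ℕ),
      ((f c).toIntLinearMap.comp (actLin J γ)).baseChange O (v n) = 0 := by
    intro γ c n
    have hz := hexcl c (fun n => ((f c).toIntLinearMap.comp (actLin J γ)).baseChange O (v n))
      (by rw [← map_smul, hv0, map_zero])
      (fun n => by rw [← map_smul, hv n])
      (fun i n => by
        show ((T' c i).toIntLinearMap.baseChange O)
            (((f c).toIntLinearMap.comp (actLin J γ)).baseChange O (v n))
          = a i • ((f c).toIntLinearMap.comp (actLin J γ)).baseChange O (v n)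
        have h1 : (T' c i).toIntLinearMap.comp ((f c).toIntLinearMap.comp (actLin J γ))
            = ((f c).toIntLinearMap.comp (actLin J γ)).comp (T i).toIntLinearMap := by
          apply LinearMap.ext
          intro x
          show T' c i (f c (γ • x)) = f c (γ • T i x)
          rw [← hT, hf]
        rw [← LinearMap.comp_apply, ← LinearMap.baseChange_comp, h1, LinearMap.baseChange_comp,
          LinearMap.comp_apply]
        have h2 : (T i).toIntLinearMap.baseChange O (v n) = a i • v n := heig i n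
        rw [h2, map_smul])
    exact congrFun hz n
  have hlift : ∀ n, ∃ s : O ⊗[ℤ] K, K.subtype.baseChange O s = v n := by
    intro n
    have hfin' : {x : J | p ^ (n + 1) • x = 0}.Finite := finite_torsion_pow J p hfin (n + 1)
    obtain ⟨s, hs⟩ := exists_lTensor_subtype_eq O (p ^ (n + 1)) hfin'
      (C := Γℚ × C) (J' := fun γc => J' γc.2)
      (fun γc => (f γc.2).toIntLinearMap.comp (actLin J γc.1)) K
      (fun x _ hx γ c => hx (γ, c)) (v n) (hvpow n) (fun γc => hvan γc.1 γc.2 n)
    exact ⟨s, hs⟩
  choose s hs using hlift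
  have hs0 : (p : O) • s 0 = 0 := by
    apply hinj
    rw [map_smul, hs, hv0, map_zero]
  have hss : ∀ n, (p : O) • s (n + 1) = s n := by
    intro n
    apply hinj
    rw [map_smul, hs, hs, hv n]
  have hsne : s ≠ 0 := by
    intro h
    apply hne
    funext n
    rw [← hs n, h]
    simp
  have hseig : ∀ j n, tensorOp O TK j (s n) = aK j • s n := by
    intro j n
    cases j with
    | inl i =>
      apply hinj
      show K.subtype.baseChange O ((TK (Sum.inl i)).toIntLinearMap.baseChange O (s n))
        = K.subtype.baseChange O (a i • s n)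
      have h1 : K.subtype.comp (TK (Sum.inl i)).toIntLinearMap
          = (T i).toIntLinearMap.comp K.subtype := by
        apply LinearMap.ext
        intro x
        rfl
      rw [← LinearMap.comp_apply, ← LinearMap.baseChange_comp, h1, LinearMap.baseChange_comp,
        LinearMap.comp_apply, hs, map_smul, hs]
      exact heig i n
    | inr b =>
      show (TK (Sum.inr b)).toIntLinearMap.baseChange O (s n) = (b : O) • s n
      have h1 : (TK (Sum.inr b)).toIntLinearMap = b • (LinearMap.id : K →ₗ[ℤ] K) := by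
        apply LinearMap.ext
        intro x
        rfl
      rw [h1, LinearMap.baseChange_smul, LinearMap.baseChange_id, LinearMap.smul_apply,
        LinearMap.id_apply, Int.cast_smul_eq_zsmul]
  obtain ⟨M, i1, i2, i3, i4, ρ, hnt, hcont, hunr, hquad⟩ :=
    exists_adic_galois_eigenmodule p O K TK aK hpO hp0 hTKG hfinK hsmK s hs0 hss hsne hseig
  refine ⟨M, i1, i2, i3, i4, ρ, hnt, hcont, ?_, ?_, ?_⟩
  · intro γ hγ
    refine hunr γ ?_
    rintro x ⟨n, hn⟩
    apply Subtype.ext
    rw [hsmulK]
    refine hγ (x : J) ⟨n, ?_⟩ x.2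
    have : ((p ^ n • x : K) : J) = 0 := by rw [hn]; rfl
    exact this
  · intro γ i c hγ
    refine hquad γ (Sum.inl i) c ?_
    rintro x ⟨n, hn⟩
    apply Subtype.ext
    have h1 := hγ (x : J) ⟨n, by
      have : ((p ^ n • x : K) : J) = 0 := by rw [hn]; rfl
      exact this⟩ x.2
    exact h1
  · intro γ b c hγ
    have h2 := hquad γ (Sum.inr b) c ?_
    · exact h2
    rintro x ⟨n, hn⟩
    apply Subtype.ext
    have h1 := hγ (x : J) ⟨n, by
      have : ((p ^ n • x : K) : J) = 0 := by rw [hn]; rfl
      exact this⟩ x.2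
    exact h1

end Main

end Fermat.Agent.S35.H991
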