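/-
S35 (row-lead helper991): THE ROW ASSEMBLY.  `qNewFrob_final : H891.QNewFrobStatement`, the single
input of the final chain `S35/H991/Ready.lean`, from the leaves of piece (G') (architect
helper450, frozen shapes of `S35/G/{Spec,SpecLevel}.lean`), all on main:

* DEG `G.H73.deg`, T0F `G.H215.t0F`, T1F `G.H858.t1f`, D2F `H155.d2f`, IFs `G.H558.ifs`;
* the level statement `H433.levelFrob_of_leaves` (helper433; ALG-FROB in the corrected form T) with
  - the three leaves of the wall A2: `A2.Alg.H754.puritySmoothLeaf`,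
    `A2.Alg.H609.purityNodeLeaf`, `A2.Alg.H34.glueLeaf`,
  - MODEL `G.H862.model`, STABLE / FROB-RES / COORD `G.H126`,
  - NODE-RAT `G.H558.nodeRat` with KRON-FROB `G.H516.kronFrob`,
  - TORIC = `G.H199.glue` (GLUE) applied to NORM-RED `G.H60.normRed`, STABLE, KRON-FROB;
* the bridge `H909.qNewFrob_of_newPartFrobExplicit`.
-/
import Fermat.Agent.S35.H433.LevelFrob
import Fermat.Agent.S35.H909.BridgeG
import Fermat.Agent.S35.H155.AuxD2F
import Fermat.Agent.S35.G.H73.Deg
import Fermat.Agent.S35.G.H215.T0F
import Fermat.Agent.S35.G.H858.T1F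
import Fermat.Agent.S35.G.H558.IFs
import Fermat.Agent.S35.G.H558.NodeRat
import Fermat.Agent.S35.G.H516.KronFrob
import Fermat.Agent.S35.G.H126.Stable
import Fermat.Agent.S35.G.H862.Model
import Fermat.Agent.S35.G.H60.NormRedFinal
import Fermat.Agent.S35.G.H199.ToricMod
import Fermat.Agent.A2.Alg.H34.Glue
import Fermat.Agent.A2.Alg.H609.PurityNode
import Fermat.Agent.A2.Alg.H754.PuritySmoothLeaf

set_option autoImplicit false
set_option linter.overlappingInstances false

namespace Fermat.Agent.S35.H991

open Fermat.Agent.S35.G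

/-- Leaf TORIC of piece (G'), at every level. -/
theorem toric_final (A : ValuationSubring Qb) (E : IntermediateField ℚ Qb) (M q m : ℕ)
    [NeZero M] [NeZero q] (w : A2.Mod.RE A E) : ToricStatement A E M q m w :=
  Fermat.Agent.S35.G.H199.glue A E M q w m
    (Fermat.Agent.S35.G.H60.normRed A E M q w)
    (Fermat.Agent.S35.G.H126.stable A E)
    (Fermat.Agent.S35.G.H516.kronFrob A E M q w)

/-- The level statement of (G') at every level with the auxiliary prime. -/
theorem levelFrob_final (M q m : ℕ) [NeZero M] [NeZero q] (hq : q.Prime) (hqM : ¬ q ∣ M)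
    (haux : HasAux M q) (hm : 0 < m) (hqm : ¬ q ∣ m) (A : ValuationSubring Qb)
    (E : IntermediateField ℚ Qb) : LevelFrobAt A E M q m :=
  Fermat.Agent.S35.H433.levelFrob_of_leaves A E M q m hq hqM haux hm hqm
    Fermat.Agent.A2.Alg.H754.puritySmoothLeaf
    Fermat.Agent.A2.Alg.H609.purityNodeLeaf
    Fermat.Agent.A2.Alg.H34.glueLeaf
    (fun w => Fermat.Agent.S35.G.H862.model A E M q w)
    (Fermat.Agent.S35.G.H126.stable A E)
    (fun w => Fermat.Agent.S35.G.H558.nodeRat A E M q w
      (Fermat.Agent.S35.G.H516.kronFrob A E M q w) (Fermat.Agent.S35.G.H126.stable A E))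
    (fun w => toric_final A E M q m w)
    (Fermat.Agent.S35.G.H126.frobRes A E q)
    (Fermat.Agent.S35.G.H126.coord E M q)

/-- (G'), explicit form. -/
theorem newPartFrobExplicit_final : NewPartFrobExplicit :=
  newPartFrobExplicit_of_parts Fermat.Agent.S35.G.H73.deg Fermat.Agent.S35.G.H215.t0F
    Fermat.Agent.S35.G.H858.t1f Fermat.Agent.S35.H155.d2f Fermat.Agent.S35.G.H558.ifs
    (fun M q m _ _ hq hqM haux hm hqm A E => levelFrob_final M q m hq hqM haux hm hqm A E)

/-- **The row assembly**: the single input of the final chain `S35/H991/Ready.lean`. -/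
theorem qNewFrob_final : Fermat.Agent.S35.H891.QNewFrobStatement :=
  Fermat.Agent.S35.H909.qNewFrob_of_newPartFrobExplicit newPartFrobExplicit_final

end Fermat.Agent.S35.H991
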