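/-
S35 (row-lead helper991): THE FINAL CHAIN.  The frozen statement S35 from ONE open input,

  `Fermat.Agent.S35.H891.QNewFrobStatement`   (cell FROB / (G'), cubic relation on `q`-new torsion).

Everything else is discharged from main:
* top + mid glue: `S35.H891.result_of_qNew` (helper891, on top of `S35/H991/Glue`);
* (X): `S35.H252.exclTate` (helper252);
* `hlat`: `S30.H42.tateLattice` (helper42);
* `hfin`, `hsm`, `hgeq`, `hunr`, `hes`: row S30 (`H330.finStatement`, `H990.smoothStatement`,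
  `S29.H571.heckeOperatorBar_smul`, `H330.torsionRelations_of_coreFamily` with the two S18 nodes).

`Fermat/Agent/S35.lean` is `result_of_qnf <proof of QNewFrobStatement> hg lam S O' …`.
-/
import Fermat.Agent.S35.H891.Bridge3
import Fermat.Agent.S35.H252.Excl
import Fermat.Agent.S30.H42.TateLattice
import Fermat.Agent.S30.H330.AdicGate
import Fermat.Agent.S30.H990.FromInputs
import Fermat.Agent.S18.Mod.H216.NodeMod
import Fermat.Agent.S18.H438.NodeAlg
import Fermat.Agent.S29.H571.HeckeGalois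

set_option autoImplicit false
set_option linter.overlappingInstances false

namespace Fermat.Agent.S35.H991

open Polynomial ModularCurve

/-- The S18 hub, from the two nodes on main. -/
theorem coreFamily_ready : Fermat.Agent.S29.H222.CoreFamily :=
  Fermat.Agent.S18.H694.coreFamily_of_nodes
    (fun M _ _ _ hℓM A hA => Fermat.Agent.S18.Mod.H216.node_mod M hℓM A hA)
    (fun M => Fermat.Agent.S18.H438.node_alg M)

theorem intPow_smul_eq_zero_iff {J : Type*} [AddCommGroup J] (p n : ℕ) (x : J) :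
    ((p : ℤ) ^ n) • x = 0 ↔ p ^ n • x = 0 := by
  rw [← Nat.cast_pow, natCast_zsmul]

/-- Input `hfin`. -/
theorem hfin_ready : ∀ (N p : ℕ) [NeZero N], p.Prime →
    Finite {x : JZero N // (p : ℤ) • x = 0} := by
  intro N p _ hp
  have hp0 : NeZero p := ⟨hp.ne_zero⟩
  have h : {x : JZero N | p • x = 0}.Finite := Fermat.Agent.S30.H330.finStatement N p
  have h3 : {x : JZero N | (p : ℤ) • x = 0}.Finite := by
    refine h.subset ?_
    intro x hx
    have hx' : (p : ℤ) • x = 0 := hx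
    show p • x = 0
    rwa [natCast_zsmul] at hx'
  exact Set.finite_coe_iff.mpr h3

/-- Input `hsm`. -/
theorem hsm_ready : ∀ (N p : ℕ) [NeZero N], ∀ x : JZero N,
    (∃ n : ℕ, ((p : ℤ) ^ n) • x = 0) →
      ∃ L : IntermediateField ℚ (AlgebraicClosure ℚ), FiniteDimensional ℚ L ∧
        ∀ σ : S30.H990.GQ, (∀ y ∈ L, σ y = y) → σ • x = x :=
  fun N _ _ x _ => Fermat.Agent.S30.H990.smoothStatement N x

/-- Input `hgeq`. -/
theorem hgeq_ready : ∀ (N : ℕ) [NeZero N] (ℓ : Nat.Primes) (σ : S30.H990.GQ) (x : JZero N),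
    heckeOperatorBar N ℓ (σ • x) = σ • heckeOperatorBar N ℓ x :=
  fun N _ ℓ σ x => Fermat.Agent.S29.H571.heckeOperatorBar_smul N ℓ σ x

/-- Input `hunr`. -/
theorem hunr_ready : ∀ (N p : ℕ) [NeZero N], ∀ q : ℕ, q.Prime → ¬ q ∣ N * p →
    ∀ A : ValuationSubring (AlgebraicClosure ℚ), A.LiesOverPrime q →
      ∀ σ ∈ A.inertiaSubgroupIn ℚ, ∀ x : JZero N,
        (∃ n : ℕ, ((p : ℤ) ^ n) • x = 0) → σ • x = x := by
  intro N p _ q hq hdvd A hA σ hσ x hx
  obtain ⟨n, hn⟩ := hx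
  exact (Fermat.Agent.S30.H330.torsionRelations_of_coreFamily coreFamily_ready N p q hq hdvd
    A hA).1 σ hσ x ⟨n, (intPow_smul_eq_zero_iff p n x).1 hn⟩

/-- Input `hes`. -/
theorem hes_ready : ∀ (N p : ℕ) [NeZero N], ∀ (ℓ : ℕ) (hℓ : ℓ.Prime), ¬ ℓ ∣ N * p →
    ∀ A : ValuationSubring (AlgebraicClosure ℚ), A.LiesOverPrime ℓ →
      ∀ σ : S30.H990.GQ, A.IsFrobeniusAt σ ℓ → ∀ x : JZero N,
        (∃ n : ℕ, ((p : ℤ) ^ n) • x = 0) →
          σ • σ • x - heckeOperatorBar N ⟨ℓ, hℓ⟩ (σ • x) + (ℓ : ℤ) • x = 0 := by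
  intro N p _ ℓ hℓ hdvd A hA σ hσ x hx
  obtain ⟨n, hn⟩ := hx
  have h := (Fermat.Agent.S30.H330.torsionRelations_of_coreFamily coreFamily_ready N p ℓ hℓ hdvd
    A hA).2 σ hσ x ⟨n, (intPow_smul_eq_zero_iff p n x).1 hn⟩
  rw [natCast_zsmul]
  exact h

/-- **THE FINAL CHAIN of row S35**: the frozen statement S35 from `QNewFrobStatement` alone. -/
theorem result_of_qnf (hQ : Fermat.Agent.S35.H891.QNewFrobStatement)
    {M : ℕ} [NeZero M] {g : CuspForm (CongruenceSubgroup.Gamma0 M) 2} (hg : g.IsNewform)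
    (lam : ℕ) [Fact lam.Prime]
    (S : Finset ℕ)
    (O' : Type) [CommRing O'] [IsDomain O'] [IsDiscreteValuationRing O']
    [IsAdicComplete (IsLocalRing.maximalIdeal O') O'] [Finite (IsLocalRing.ResidueField O')]
    [CharZero O'] (hlamO' : (lam : O') ∈ IsLocalRing.maximalIdeal O')
    (chig : CuspForm.heckeAlgebra M 2 (↑S : Set ℕ) →+* ℂ)
    (hchig : ∀ (ℓ : ℕ) (hℓ : ℓ.Prime) (hℓM : ¬ ℓ ∣ M) (hℓS : ℓ ∉ (↑S : Set ℕ)),
      chig (CuspForm.heckeAlgebra.T hℓ hℓM hℓS) = ModularFormClass.qCoeff g ℓ)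
    (iota : chig.range →+* O')
    (hlamS : lam ∈ S) (hMS : ∀ q : ℕ, q.Prime → q ∣ M → q ∈ S) :
    ∃ (O'' : Type) (_ : CommRing O'') (_ : IsDomain O'') (_ : IsDiscreteValuationRing O'')
      (_ : IsAdicComplete (IsLocalRing.maximalIdeal O'') O'') (_ : Finite (IsLocalRing.ResidueField O''))
      (_ : CharZero O'') (_ : Algebra O' O'') (_ : Module.Finite O' O'') (_ : IsLocalHom (algebraMap O' O'')),
      Function.Injective (algebraMap O' O'') ∧
      ∃ ρ : GaloisRepAdic O'',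
        (∀ (ℓ : ℕ) (hℓ : ℓ.Prime) (hℓM : ¬ ℓ ∣ M) (hℓS : ℓ ∉ (↑S : Set ℕ)),
          ∀ A : ValuationSubring (AlgebraicClosure ℚ), A.LiesOverPrime ℓ →
            ∀ σ : AlgebraicClosure ℚ ≃ₐ[ℚ] AlgebraicClosure ℚ, A.IsFrobeniusAt σ ℓ →
              LinearMap.charpoly (ρ.ρ σ) =
                X ^ 2 - C (algebraMap O' O'' ((iota.comp chig.rangeRestrict) (CuspForm.heckeAlgebra.T hℓ hℓM hℓS))) * X
                  + C ((ℓ : O''))) ∧
        (∀ q : ℕ, q.Prime → q ≠ lam → q ∣ M → ¬ q ^ 2 ∣ M →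
          ∀ A : ValuationSubring (AlgebraicClosure ℚ), A.LiesOverPrime q →
            ∀ σ : AlgebraicClosure ℚ ≃ₐ[ℚ] AlgebraicClosure ℚ, A.IsFrobeniusAt σ q →
              LinearMap.charpoly (ρ.ρ σ) = X ^ 2 - C ((q : O'') + 1) * X + C ((q : O'')) ∨
              LinearMap.charpoly (ρ.ρ σ) = X ^ 2 + C ((q : O'') + 1) * X + C ((q : O''))) :=
  Fermat.Agent.S35.H891.result_of_qNew hfin_ready hsm_ready hgeq_ready hunr_ready hes_ready
    Fermat.Agent.S30.H42.tateLattice hQ Fermat.Agent.S35.H252.exclTate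
    hg lam S O' hlamO' chig hchig iota hlamS hMS

end Fermat.Agent.S35.H991
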